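import Fermat.Agent.Lib.WeakChebotarev.Defs
import Fermat.Agent.S14.Analytic.Defs
import Fermat.Prelude.Def_EllipticCurve_FrobeniusTrace

/-!
# Weak Chebotarev: SKELETON (statements only; every `sorry` is a task, target file in the comment).
NEVER import this file from proof files.
-/

set_option autoImplicit false

namespace Fermat.Agent.Lib.WeakChebotarev

open NumberField Ideal Filter Topology
open scoped nonZeroDivisors Pointwise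
open Fermat.Agent.S14.Analytic (term zetaSum)

/-! ## AN1 : file Lib/WeakChebotarev/LogZeta.lean -/

/-- `log ζ_F(s) = log (1/(s-1)) + O(1)` -/
theorem log_zetaSum_bound (F : Type*) [Field F] [NumberField F] :
    ∃ C : ℝ, ∀ᶠ s in 𝓝[>] (1 : ℝ), |Real.log (zetaSum F s) - Real.log (1 / (s - 1))| ≤ C := by
  sorry

/-! ## AN2 : file Lib/WeakChebotarev/EulerLog.lean -/

/-- sum of `N(P)^(-s)` over all nonzero prime ideals -/
noncomputable def primeIdealSum (F : Type*) [Field F] [NumberField F] (s : ℝ) : ℝ :=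
  ∑' P : {P : (Ideal (𝓞 F))⁰ // (P : Ideal (𝓞 F)).IsPrime}, term F s P.1

theorem primeIdealSum_le_log (F : Type*) [Field F] [NumberField F] {s : ℝ} (hs : 1 < s) :
    primeIdealSum F s ≤ Real.log (zetaSum F s) := by
  sorry

theorem log_le_primeIdealSum (F : Type*) [Field F] [NumberField F] {s : ℝ} (hs : 1 < s) :
    Real.log (zetaSum F s) ≤ primeIdealSum F s + zetaSum F 2 := by
  sorry

/-! ## AN3 : file Lib/WeakChebotarev/DegOne.lean -/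

theorem degOneCount_le (F : Type*) [Field F] [NumberField F] (ℓ : ℕ) (hℓ : ℓ.Prime) :
    degOneCount F ℓ ≤ Module.finrank ℚ F := by
  sorry

theorem summable_degOne (F : Type*) [Field F] [NumberField F] {s : ℝ} (hs : 1 < s) :
    Summable fun ℓ : Nat.Primes ↦ (degOneCount F (ℓ : ℕ) : ℝ) * ((ℓ : ℕ) : ℝ) ^ (-s) := by
  sorry

theorem primeIdealSum_sub_degOneSum (F : Type*) [Field F] [NumberField F] :
    ∃ C : ℝ, ∀ s : ℝ, 1 < s → |primeIdealSum F s - degOneSum F s| ≤ C := by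
  sorry

/-- THE ANALYTIC INPUT -/
theorem degOneSum_bound (F : Type*) [Field F] [NumberField F] :
    ∃ C : ℝ, ∀ᶠ s in 𝓝[>] (1 : ℝ), |degOneSum F s - Real.log (1 / (s - 1))| ≤ C := by
  sorry

/-! ## ALG1 : file Lib/WeakChebotarev/Inertia.lean -/

theorem inertia_eq_bot (L : Type*) [Field L] [NumberField L] [IsGalois ℚ L] (ℓ : ℕ)
    (hℓ : ℓ.Prime) (hunr : ¬ (ℓ : ℤ) ∣ discr L) (Q : Ideal (𝓞 L)) [Q.IsPrime]
    (hQ : (ℓ : 𝓞 L) ∈ Q) (g : L ≃ₐ[ℚ] L) (hg : ∀ x : 𝓞 L, g • x - x ∈ Q) : g = 1 := by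
  sorry

theorem zpowers_eq_stabilizer (L : Type*) [Field L] [NumberField L] [IsGalois ℚ L] (ℓ : ℕ)
    (hℓ : ℓ.Prime) (hunr : ¬ (ℓ : ℤ) ∣ discr L) (Q : Ideal (𝓞 L)) [Q.IsPrime]
    (hQ : (ℓ : 𝓞 L) ∈ Q) (φ : L ≃ₐ[ℚ] L) (hφ : ∀ x : 𝓞 L, φ • x - x ^ ℓ ∈ Q) :
    Subgroup.zpowers φ = MulAction.stabilizer (L ≃ₐ[ℚ] L) Q := by
  sorry

/-! ## ALG2 : file Lib/WeakChebotarev/Count.lean -/

/-- THE ALGEBRAIC INPUT -/
theorem card_mul_degOneCount (L : Type*) [Field L] [NumberField L] [IsGalois ℚ L]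
    (H : Subgroup (L ≃ₐ[ℚ] L)) (ℓ : ℕ) (hℓ : ℓ.Prime) (hunr : ¬ (ℓ : ℤ) ∣ discr L)
    (Q : Ideal (𝓞 L)) [Q.IsPrime] (hQ : (ℓ : 𝓞 L) ∈ Q) :
    Nat.card H * degOneCount (FixedPoints.intermediateField H : IntermediateField ℚ L) ℓ =
      conjCount (MulAction.stabilizer (L ≃ₐ[ℚ] L) Q) H := by
  sorry

/-! ## ABS : file Lib/WeakChebotarev/Abstract.lean -/

theorem abstract_density {G : Type*} [Group G] [Finite G] {ι : Type*} (D : ι → Subgroup G)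
    (w : ℝ → ι → ℝ) (lam : ℝ → ℝ) (l : Filter ℝ) [l.NeBot]
    (hw : ∀ᶠ s in l, (∀ i, 0 ≤ w s i ∧ w s i ≤ 1) ∧ Summable (w s))
    (hlam : Tendsto lam l atTop)
    (hH : ∀ H : Subgroup G, ∃ C : ℝ, ∀ᶠ s in l,
      |∑' i, (conjCount (D i) H : ℝ) * w s i - Nat.card H * lam s| ≤ C)
    (σ : G) (T : Set ι) (hT : T.Finite) :
    ∃ i ∉ T, ∃ g : G, (D i).map (MulAut.conj g).toMonoidHom = Subgroup.zpowers σ := by
  sorry

/-! ## NF : file Lib/WeakChebotarev/NumberField.lean -/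

theorem exists_stabilizer_eq_zpowers (L : Type*) [Field L] [NumberField L] [IsGalois ℚ L]
    (σ : L ≃ₐ[ℚ] L) (T : Finset ℕ) :
    ∃ ℓ : ℕ, ℓ.Prime ∧ ℓ ∉ T ∧ ¬ (ℓ : ℤ) ∣ discr L ∧ ∃ Q : Ideal (𝓞 L), Q.IsPrime ∧
      (ℓ : 𝓞 L) ∈ Q ∧ MulAction.stabilizer (L ≃ₐ[ℚ] L) Q = Subgroup.zpowers σ := by
  sorry

/-! ## QBAR : file Lib/WeakChebotarev/Qbar.lean, final file Lib/WeakChebotarev.lean -/

/-- WEAK CHEBOTAREV, consumer form. -/
theorem weak_chebotarev (L : IntermediateField ℚ (AlgebraicClosure ℚ)) [FiniteDimensional ℚ L]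
    [Normal ℚ L] (σ : AlgebraicClosure ℚ ≃ₐ[ℚ] AlgebraicClosure ℚ) (T : Finset ℕ) :
    ∃ (ℓ : ℕ) (A : ValuationSubring (AlgebraicClosure ℚ)), ℓ.Prime ∧ ℓ ∉ T ∧
      A.LiesOverPrime ℓ ∧
      (∀ τ ∈ A.inertiaSubgroupIn ℚ, ∀ x ∈ L, τ x = x) ∧
      ∀ φ : AlgebraicClosure ℚ ≃ₐ[ℚ] AlgebraicClosure ℚ, A.IsFrobeniusAt φ ℓ →
        (∃ k : ℕ, ∀ x ∈ L, φ x = (σ ^ k) x) ∧ (∃ k : ℕ, ∀ x ∈ L, σ x = (φ ^ k) x) := by
  sorry

end Fermat.Agent.Lib.WeakChebotarev
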